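import Mathlib

/-!
# S35 / FROB — leaf FIX, abstract core (helper558), Mathlib only

*Nodes are fixed by the square of a Frobenius lift.*

Setting: two ring homomorphisms `α β : A →+* B` (the two degeneracy maps between the charts of
levels `M` and `Mq`), two ideals `P₁ P₂` of `B` (the two components of the special fibre), a ring
endomorphism `ψ` of `A` (the action of `σ⁻¹` on coefficients, `σ` a Frobenius lift) with the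
PRECISE semilinear Kronecker congruences

    β a ≡ (α (ψ a)) ^ q  mod P₁,        α a ≡ (β (ψ a)) ^ q  mod P₂,

ring endomorphisms `Φ` of `B` and `Φ₀` of `A` (the action of `σ²`) with `Φ ∘ α = α ∘ Φ₀`,
`ψ ∘ ψ ∘ Φ₀ = id`, `Φ P₁ ⊆ P₁`, and `B = α A + P₁` (the first component is parametrised by `α`).

Then for every ideal `n ⊇ P₁ + P₂` (a NODE):

* `frob_sq_sub_pow_mem`  : `Φ b - b ^ (q ^ 2) ∈ n` for every `b : B`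
                           (`Φ` induces the `q²`-Frobenius on `B / n`);
* `frob_sq_mem`          : `b ∈ n → Φ b ∈ n`   (`Φ n ⊆ n`: the node is fixed);
* `frob_sq_mem_iff`      : `Φ b ∈ n ↔ b ∈ n` for prime `n`.

No noetherian hypothesis, no normality, nothing about valuations.
-/

set_option autoImplicit false

namespace Fermat.Agent.S35.H558

variable {A B : Type*} [CommRing A] [CommRing B]

/-- `x - y ∈ n` implies `x ^ k - y ^ k ∈ n` (`x - y ∣ x ^ k - y ^ k`). -/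
theorem pow_sub_pow_mem_fix {n : Ideal B} {x y : B} (h : x - y ∈ n) (k : ℕ) :
    x ^ k - y ^ k ∈ n := by
  obtain ⟨c, hc⟩ := sub_dvd_pow_sub_pow x y k
  rw [hc]
  exact n.mul_mem_right c h

section Core

variable {q : ℕ} {α β : A →+* B} {P₁ P₂ n : Ideal B} {ψ Φ₀ : A →+* A} {Φ : B →+* B}

/-- **Two Kronecker steps at a node**: `α a ≡ (α (ψ (ψ a))) ^ (q ^ 2)` modulo `n ⊇ P₁ + P₂`. -/
theorem alpha_sub_pow_sq_mem (hP₁ : P₁ ≤ n) (hP₂ : P₂ ≤ n)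
    (hK₁ : ∀ a : A, β a - (α (ψ a)) ^ q ∈ P₁) (hK₂ : ∀ a : A, α a - (β (ψ a)) ^ q ∈ P₂)
    (a : A) : α a - (α (ψ (ψ a))) ^ (q ^ 2) ∈ n := by
  have h1 : α a - (β (ψ a)) ^ q ∈ n := hP₂ (hK₂ a)
  have h2 : β (ψ a) - (α (ψ (ψ a))) ^ q ∈ n := hP₁ (hK₁ (ψ a))
  have h3 : (β (ψ a)) ^ q - ((α (ψ (ψ a))) ^ q) ^ q ∈ n := pow_sub_pow_mem_fix h2 q
  have h4 : α a - (α (ψ (ψ a))) ^ (q ^ 2) =
      (α a - (β (ψ a)) ^ q) + ((β (ψ a)) ^ q - ((α (ψ (ψ a))) ^ q) ^ q) := by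
    rw [pow_two, pow_mul]
    ring
  rw [h4]
  exact n.add_mem h1 h3

/-- **FIX, core.**  `Φ` (the square of a Frobenius lift) induces the `q²`-power map on `B / n`
for every ideal `n ⊇ P₁ + P₂` (the characteristic plays no role here). -/
theorem frob_sq_sub_pow_mem (hP₁ : P₁ ≤ n) (hP₂ : P₂ ≤ n)
    (hK₁ : ∀ a : A, β a - (α (ψ a)) ^ q ∈ P₁) (hK₂ : ∀ a : A, α a - (β (ψ a)) ^ q ∈ P₂)
    (hΦα : ∀ a : A, Φ (α a) = α (Φ₀ a)) (hψΦ : ∀ a : A, ψ (ψ (Φ₀ a)) = a)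
    (hΦP : ∀ p ∈ P₁, Φ p ∈ P₁) (hsurj : ∀ b : B, ∃ a : A, b - α a ∈ P₁) (b : B) :
    Φ b - b ^ (q ^ 2) ∈ n := by
  obtain ⟨a, ha⟩ := hsurj b
  -- `Φ b ≡ Φ (α a) = α (Φ₀ a) ≡ (α a) ^ (q²) ≡ b ^ (q²)`
  have h1 : Φ b - α (Φ₀ a) ∈ n := by
    have := hΦP _ ha
    rw [map_sub, hΦα] at this
    exact hP₁ this
  have h2 : α (Φ₀ a) - (α a) ^ (q ^ 2) ∈ n := by
    have := alpha_sub_pow_sq_mem (q := q) hP₁ hP₂ hK₁ hK₂ (Φ₀ a)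
    rwa [hψΦ] at this
  have h3 : b ^ (q ^ 2) - (α a) ^ (q ^ 2) ∈ n := by
    have hb : b - α a ∈ n := hP₁ ha
    exact pow_sub_pow_mem_fix hb (q ^ 2)
  have h4 : Φ b - b ^ (q ^ 2) =
      (Φ b - α (Φ₀ a)) + (α (Φ₀ a) - (α a) ^ (q ^ 2)) - (b ^ (q ^ 2) - (α a) ^ (q ^ 2)) := by ring
  rw [h4]
  exact n.sub_mem (n.add_mem h1 h2) h3

/-- **FIX.**  Every node `n ⊇ P₁ + P₂` is mapped into itself by `Φ`. -/
theorem frob_sq_mem (hq0 : 0 < q) (hP₁ : P₁ ≤ n) (hP₂ : P₂ ≤ n)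
    (hK₁ : ∀ a : A, β a - (α (ψ a)) ^ q ∈ P₁) (hK₂ : ∀ a : A, α a - (β (ψ a)) ^ q ∈ P₂)
    (hΦα : ∀ a : A, Φ (α a) = α (Φ₀ a)) (hψΦ : ∀ a : A, ψ (ψ (Φ₀ a)) = a)
    (hΦP : ∀ p ∈ P₁, Φ p ∈ P₁) (hsurj : ∀ b : B, ∃ a : A, b - α a ∈ P₁)
    {b : B} (hb : b ∈ n) : Φ b ∈ n := by
  have h1 := frob_sq_sub_pow_mem hP₁ hP₂ hK₁ hK₂ hΦα hψΦ hΦP hsurj b
  have h2 : b ^ (q ^ 2) ∈ n := n.pow_mem_of_mem hb _ (pow_pos hq0 2)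
  have h3 : Φ b = (Φ b - b ^ (q ^ 2)) + b ^ (q ^ 2) := by ring
  rw [h3]
  exact n.add_mem h1 h2

/-- **FIX, iff form** for a prime (e.g. maximal) node. -/
theorem frob_sq_mem_iff [n.IsPrime] (hP₁ : P₁ ≤ n) (hP₂ : P₂ ≤ n)
    (hK₁ : ∀ a : A, β a - (α (ψ a)) ^ q ∈ P₁) (hK₂ : ∀ a : A, α a - (β (ψ a)) ^ q ∈ P₂)
    (hΦα : ∀ a : A, Φ (α a) = α (Φ₀ a)) (hψΦ : ∀ a : A, ψ (ψ (Φ₀ a)) = a)
    (hΦP : ∀ p ∈ P₁, Φ p ∈ P₁) (hsurj : ∀ b : B, ∃ a : A, b - α a ∈ P₁) (b : B) :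
    Φ b ∈ n ↔ b ∈ n := by
  refine ⟨fun h => ?_, fun h => ?_⟩
  swap
  · rcases Nat.eq_zero_or_pos q with h0 | hq0
    · -- `q = 0`: `b ^ (0 ^ 2) = 1`, so `Φ b - 1 ∈ n`; impossible for `b ∈ n` unless trivial
      have h1 := frob_sq_sub_pow_mem hP₁ hP₂ hK₁ hK₂ hΦα hψΦ hΦP hsurj (0 : B)
      rw [h0] at h1
      simp at h1
      exact absurd ((Ideal.eq_top_iff_one n).mpr h1) (Ideal.IsPrime.ne_top inferInstance)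
    · exact frob_sq_mem hq0 hP₁ hP₂ hK₁ hK₂ hΦα hψΦ hΦP hsurj h
  have h1 := frob_sq_sub_pow_mem hP₁ hP₂ hK₁ hK₂ hΦα hψΦ hΦP hsurj b
  have h2 : b ^ (q ^ 2) ∈ n := by
    have h3 : b ^ (q ^ 2) = Φ b - (Φ b - b ^ (q ^ 2)) := by ring
    rw [h3]
    exact n.sub_mem h h1
  exact Ideal.IsPrime.mem_of_pow_mem inferInstance _ h2

/-- `Φ` maps `n` ONTO `n` when `Φ` is bijective: `Ideal.map`/`comap` form. -/
theorem frob_sq_comap_eq [n.IsPrime] (hP₁ : P₁ ≤ n) (hP₂ : P₂ ≤ n)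
    (hK₁ : ∀ a : A, β a - (α (ψ a)) ^ q ∈ P₁) (hK₂ : ∀ a : A, α a - (β (ψ a)) ^ q ∈ P₂)
    (hΦα : ∀ a : A, Φ (α a) = α (Φ₀ a)) (hψΦ : ∀ a : A, ψ (ψ (Φ₀ a)) = a)
    (hΦP : ∀ p ∈ P₁, Φ p ∈ P₁) (hsurj : ∀ b : B, ∃ a : A, b - α a ∈ P₁) :
    n.comap Φ = n := by
  ext b
  rw [Ideal.mem_comap]
  exact frob_sq_mem_iff hP₁ hP₂ hK₁ hK₂ hΦα hψΦ hΦP hsurj b

end Core

end Fermat.Agent.S35.H558
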